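import Fermat.Agent.CAR.CNT.Red
import Fermat.Agent.TOR.T1.Main
import Fermat.Agent.GAL.KLB.Count

/-!
# CAR / CNT-ABS : the colength of the conductor at level `q M₀` is at most `g₁ - 2 g₀ + 1`

Abstract two-level setting of `TOR/T1` (`Lvl`, `XDat`, `Cusp`), `t = α x * β x`.
`ISig φ` : `(φ, 0)` lies in the reduction of `B_t ∩ {NN ≤ 1}`.
Inputs: Riemann's inequality for `LL K t a` (genus `g₁`), the exact count at level `M₀` (genus `g₀`).
-/

set_option autoImplicit false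

open Polynomial ModularCurve AlgebraicCurve

noncomputable section

namespace Fermat.Agent.CAR.CNT

open Fermat.Agent.GAL.KL Fermat.Agent.GAL.KLC Fermat.Agent.GAL.KLB Fermat.Agent.TOR.KL2
  Fermat.Agent.TOR.T1 Fermat.Agent.S24.FF

section KL2

variable {K F Γ₀ : Type*} [Field K] [Field F] [Algebra K F] [LinearOrderedCommGroupWithZero Γ₀]
  {v₁ v₂ : Valuation F Γ₀} {t : F}

theorem uNorm_NN (S : Setup K v₁ v₂ t) : UNorm (v₁.comap (algebraMap K F)) (NN v₁ v₂) where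
  add := NN_add_le
  smul := fun a x => by rw [Algebra.smul_def, S.NN_algebraMap_mul]; rfl
  ne := fun x hx h => hx (NN_eq_zero.1 h)

theorem hasFunN_BBs [IsAlgClosed K] [CharZero K] (S : Setup K v₁ v₂ t) {d : ℕ} (β : Fin d → F)
    (hβ : ON2 K v₁ v₂ t β) (hβs : Spans K t β) :
    HasFunN (v₁.comap (algebraMap K F)) (NN v₁ v₂) (BBs K t) := by
  have hG := S.G1
  obtain ⟨b, hb⟩ := exists_basis_BB hG.inj β (hβ.inj S) hβs
  obtain ⟨e, he, heON⟩ := exists_ON2_basis S β hβ hβs _ b hb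
  have hker : LinearMap.ker (funcComb K t e) = ⊥ := by
    rw [LinearMap.ker_eq_bot']
    intro p hp
    rw [funcComb_apply] at hp
    exact he.1 p hp
  obtain ⟨Ψ, hΨ⟩ := LinearMap.exists_leftInverse_of_injective (funcComb K t e) hker
  have hΨ' : ∀ p : Fin d → K[X], Ψ (comb K t p e) = p := by
    intro p
    rw [← funcComb_apply]
    exact LinearMap.congr_fun hΨ p
  intro z hz hz0
  obtain ⟨p, rfl⟩ := (he.2 z).mp hz
  have hp0 : p ≠ 0 := by
    rintro rfl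
    apply hz0
    simp [comb]
  obtain ⟨i₁, -⟩ := Function.ne_iff.mp hp0
  obtain ⟨i₀, -, hmax⟩ := Finset.exists_max_image Finset.univ (fun i => v₁ (aeval t (p i)))
    ⟨i₁, Finset.mem_univ _⟩
  have hvz : NN v₁ v₂ (comb K t p e) = v₁ (aeval t (p i₀)) :=
    le_antisymm ((heON p _).mpr fun i => hmax i (Finset.mem_univ _)) ((heON p _).mp le_rfl i₀)
  obtain ⟨j₀, hj₀⟩ := hG.exists_coeff (p i₀)
  refine ⟨(lcoeff K j₀) ∘ₗ (LinearMap.proj i₀ : (Fin d → K[X]) →ₗ[K] K[X]) ∘ₗ Ψ, ?_, ?_⟩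
  · simp only [LinearMap.comp_apply, hΨ', LinearMap.proj_apply, lcoeff_apply]
    rw [hvz, hj₀]
    rfl
  · intro z' hz'
    obtain ⟨p', rfl⟩ := (he.2 z').mp hz'
    simp only [LinearMap.comp_apply, hΨ', LinearMap.proj_apply, lcoeff_apply]
    exact ((hG (p' i₀) _).mp le_rfl j₀).trans ((heON p' _).mp le_rfl i₀)

end KL2

variable {K F₀ F k Γ' Γ₀ : Type*} [Field K] [Field F₀] [Field F] [Algebra K F₀]
  [Algebra K F] [Field k] [LinearOrderedCommGroupWithZero Γ'] [LinearOrderedCommGroupWithZero Γ₀]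
  {v₀ : Valuation F₀ Γ'} {ρ₀ : v₀.integer →+* LaurentSeries k} {v : Valuation F Γ₀}
  {ρ : v.integer →+* LaurentSeries k} {α β : F₀ →ₐ[K] F} {w : F ≃ₐ[K] F} {q : ℕ} [NeZero q]
  {x x' : F₀} {ξ ξ' : LaurentSeries k} {m : ℕ}

/-- `(φ, 0)` lies in the reduction of the chart ring `B_t ∩ {NN ≤ 1}`. -/
def ISig (ρ : v.integer →+* LaurentSeries k) (w : F ≃ₐ[K] F) (t : F) (φ : LaurentSeries k) : Prop :=
  ∃ z : F, IsInt K t z ∧ Rd ρ z φ ∧ v (w z) < 1

/-- scalar multiples and reductions. -/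
theorem rd_smul (hρ : IsRed K v ρ) {a : K} (ha : v (algebraMap K F a) ≤ 1) {z : F}
    {φ : LaurentSeries k} (h : Rd ρ z φ) : Rd ρ (a • z) (resK hρ ⟨a, ha⟩ • φ) := by
  obtain ⟨hz, rfl⟩ := h
  have h1 : Rd ρ (algebraMap K F a) (HahnSeries.C (resK hρ ⟨a, ha⟩)) :=
    ⟨ha, rho_toInt' hρ ⟨a, ha⟩⟩
  have h2 := h1.mul (Rd.mk (ρ := ρ) ⟨z, hz⟩)
  rw [HahnSeries.C_mul_eq_smul] at h2
  rw [Algebra.smul_def]
  exact h2

variable [IsAlgClosed K] [CharZero K] [IsFF1 K F₀] [IsFF1 K F]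

/-- **RED** for the two valuations `v`, `v ∘ w`. -/
theorem exists_li_red2 (H : Lvl K ρ₀ ρ α β w q) (X : XDat K ρ₀ x x' ξ ξ' m q) (hq : 2 ≤ q)
    {P₀ : Place K F₀} {P₁ : Place K F} (C : Cusp α β x m q P₀ P₁)
    (W : Submodule K F) (hW : W ≤ BBs K (tt α β x)) [FiniteDimensional K W] :
    ∃ (z : Fin (Module.finrank K W) → F) (φ ψ : Fin (Module.finrank K W) → LaurentSeries k),
      (∀ i, z i ∈ W) ∧ (∀ i, Rd ρ (z i) (φ i)) ∧ (∀ i, Rd ρ (w (z i)) (ψ i)) ∧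
      LinearIndependent k (fun i => ((φ i, ψ i) : LaurentSeries k × LaurentSeries k)) := by
  have S := setup H X
  obtain ⟨z, hzW, hzN, hzli⟩ := exists_orthonormal (uNorm_NN S)
    (hasFunN_BBs S _ (on2_ee H X hq) (spans_ee H X hq C)) W hW
  have h1 : ∀ i, v (z i) ≤ 1 := fun i => (NN_le_iff.1 (hzN i).le).1
  have h2 : ∀ i, v (w (z i)) ≤ 1 := fun i => (NN_le_iff.1 (hzN i).le).2
  choose φ hφ using fun i => exists_rd (ρ := ρ) (h1 i)
  choose ψ hψ using fun i => exists_rd (ρ := ρ) (h2 i)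
  refine ⟨z, φ, ψ, hzW, hφ, hψ, ?_⟩
  rw [Fintype.linearIndependent_iff]
  intro c hc i
  choose a ha using fun i => resK_surjective H.red (c i)
  have hs1 : Rd ρ (∑ i, ((a i : AK K v) : K) • z i) (∑ i, c i • φ i) :=
    Rd.sum _ fun i _ => by
      have := rd_smul H.red (a i).2 (hφ i)
      rwa [Subtype.coe_eta, ha i] at this
  have hs2 : Rd ρ (w (∑ i, ((a i : AK K v) : K) • z i)) (∑ i, c i • ψ i) := by
    rw [map_sum]
    refine Rd.sum _ fun i _ => ?_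
    have := rd_smul H.red (a i).2 (hψ i)
    rwa [Subtype.coe_eta, ha i, ← map_smul] at this
  have hc1 : ∑ i, c i • φ i = 0 := by
    have := congrArg Prod.fst hc
    simpa [Prod.fst_sum] using this
  have hc2 : ∑ i, c i • ψ i = 0 := by
    have := congrArg Prod.snd hc
    simpa [Prod.snd_sum] using this
  rw [hc1] at hs1
  rw [hc2] at hs2
  have hlt : NN v (vw K v w) (∑ i, ((a i : AK K v) : K) • z i) < 1 :=
    NN_lt_iff.2 ⟨(rd_zero_iff H.red).1 hs1, (rd_zero_iff H.red).1 hs2⟩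
  have h3 := hzli (fun i => ((a i : AK K v) : K)) hlt i
  rw [← ha i]
  exact (resK_eq_zero_iff H.red (a i)).2 h3

/-- the reduction of `LL K t a ∩ {NN ≤ 1}` lies in `B̄_{(q+1) a}`. -/
theorem rd_mem_Bbar (H : Lvl K ρ₀ ρ α β w q) (X : XDat K ρ₀ x x' ξ ξ' m q) (hq : 2 ≤ q)
    (hA : Arch v) {P₀ : Place K F₀} {P₁ : Place K F} (C : Cusp α β x m q P₀ P₁) {a : ℕ} {z : F}
    (hz : z ∈ LL K (tt α β x) a) {φ : LaurentSeries k} (h1 : Rd ρ z φ) (h2 : v (w z) ≤ 1) :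
    φ ∈ Bbar H.red₀ ξ ((q + 1) * a) := by
  have hξ := xi_ne_zero X
  obtain ⟨c, hc⟩ := (chartIn_t H X hq hA C).res z φ h1
  refine ⟨⟨(chartIn_t H X hq hA C).ir z φ hz.1 h1 h2, ?_⟩, ⟨c, hc.1⟩, hc.2⟩
  have h3 : Rd ρ ((tt α β x)⁻¹ ^ a) (ξ⁻¹ ^ ((q + 1) * a)) := by
    rw [pow_mul, inv_pow ξ]
    exact ((rd_tt H X).inv H.red (pow_ne_zero _ hξ)).pow a
  refine (chartIn_t_inv H X hq hA C).ir _ _ hz.2 (h3.mul h1) ?_
  rw [map_mul, map_pow, map_inv₀, w_tt H x, map_mul]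
  exact mul_le_one' h3.le_one h2

/-- **CNT (abstract)**: among `d₀ + 1` elements of the reduced chart ring `R'` of level `M₀` some nontrivial
linear combination lies in `I_Σ`;  `d₀ = g₁ - 2 g₀ + 1`. -/
theorem cnt_abs (H : Lvl K ρ₀ ρ α β w q) (X : XDat K ρ₀ x x' ξ ξ' m q) (hq : 2 ≤ q)
    (hA : Arch v) {P₀ : Place K F₀} {P₁ : Place K F} (C : Cusp α β x m q P₀ P₁)
    {g₀ g₁ d₀ : ℕ} (hd : d₀ + 2 * g₀ = g₁ + 1)
    (hRI : ∀ a : ℕ, ((a * ((q + 1) * m + (q + 1) * m) + 1 : ℕ) : ℤ) - g₁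
      ≤ Module.finrank K (LL K (tt α β x) a))
    (hcnt : ∃ a₀ : ℕ, ∀ a, a₀ ≤ a → Module.Finite k (Bbar H.red₀ ξ a) ∧
      Module.finrank k (Bbar H.red₀ ξ a) + g₀ = a * m + 1)
    (φ : Fin (d₀ + 1) → LaurentSeries k) (hφ : ∀ i, IsInt k ξ (φ i) ∧ ∃ c, Rd ρ₀ c (φ i)) :
    ∃ c : Fin (d₀ + 1) → k, c ≠ 0 ∧ ISig ρ w (tt α β x) (∑ i, c i • φ i) := by
  classical
  have hξ := xi_ne_zero X
  have hm := X.m_pos
  obtain ⟨a₀, ha₀⟩ := hcnt
  choose m₀ hm₀ using fun i =>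
    IsInt.shift (t := ξ⁻¹) (inv_ne_zero hξ) (by rw [inv_inv]; exact (hφ i).1)
  -- the level `a`
  obtain ⟨a, ha1', ha2, ha3'⟩ : ∃ a : ℕ, a₀ ≤ a ∧ g₁ ≤ a ∧ ∀ i, m₀ i ≤ a :=
    ⟨max (max a₀ g₁) (Finset.univ.sup m₀), le_trans (le_max_left _ _) (le_max_left _ _),
      le_trans (le_max_right _ _) (le_max_left _ _),
      fun i => le_trans (Finset.le_sup (Finset.mem_univ i)) (le_max_right _ _)⟩
  have haa : a ≤ (q + 1) * a := Nat.le_mul_of_pos_left a (Nat.succ_pos q)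
  have ha1 : a₀ ≤ (q + 1) * a := le_trans ha1' haa
  have ha3 : ∀ i, m₀ i ≤ (q + 1) * a := fun i => le_trans (ha3' i) haa
  set T := Bbar H.red₀ ξ ((q + 1) * a) with hT
  obtain ⟨hTfin, hTrank⟩ : Module.Finite k T ∧ Module.finrank k T + g₀ = (q + 1) * a * m + 1 :=
    ha₀ _ ha1
  have hφT : ∀ i, φ i ∈ T := fun i => by
    obtain ⟨c, hc⟩ := (hφ i).2
    exact ⟨⟨(hφ i).1, hm₀ i _ (ha3 i)⟩, ⟨c, hc.1⟩, hc.2⟩
  set W := LL K (tt α β x) a with hW
  have hRIa : ((a * ((q + 1) * m + (q + 1) * m) + 1 : ℕ) : ℤ) - g₁ ≤ Module.finrank K W := hRI a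
  have hD : 1 ≤ (q + 1) * m + (q + 1) * m := by
    have : 0 < (q + 1) * m := Nat.mul_pos (Nat.succ_pos q) hm
    omega
  have hpos : 0 < Module.finrank K W := by
    have h1 : a ≤ a * ((q + 1) * m + (q + 1) * m) := Nat.le_mul_of_pos_right a hD
    have h2 : ((a * ((q + 1) * m + (q + 1) * m) + 1 : ℕ) : ℤ) - g₁ ≥ 1 := by
      have : g₁ + 1 ≤ a * ((q + 1) * m + (q + 1) * m) + 1 := by omega
      omega
    omega
  have : FiniteDimensional K W := Module.finite_of_finrank_pos hpos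
  obtain ⟨z, φ', ψ', hzW, hφ', hψ', hli⟩ := exists_li_red2 H X hq C W (LL_le_BBs _ a)
  have hwW : ∀ i, w (z i) ∈ W := fun i => by
    refine ⟨isInt_w (w_tt H x) (hzW i).1, ?_⟩
    have h1 := isInt_w (w := w) (u := (tt α β x)⁻¹) (by rw [map_inv₀, w_tt H x]) (hzW i).2
    rwa [map_mul, map_pow, map_inv₀, w_tt H x] at h1
  have hφ'T : ∀ i, φ' i ∈ T := fun i => rd_mem_Bbar H X hq hA C (hzW i) (hφ' i) (hψ' i).le_one
  have hψ'T : ∀ i, ψ' i ∈ T := fun i =>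
    rd_mem_Bbar H X hq hA C (hwW i) (hψ' i) (by rw [H.ww]; exact (hφ' i).le_one)
  -- the vectors
  let U : Fin (d₀ + 1) ⊕ Fin (Module.finrank K W) → ↥T × ↥T :=
    Sum.elim (fun j => (⟨φ j, hφT j⟩, 0)) (fun i => (⟨φ' i, hφ'T i⟩, ⟨ψ' i, hψ'T i⟩))
  have hnot : ¬ LinearIndependent k U := by
    intro hU
    have h1 := hU.fintype_card_le_finrank
    rw [Fintype.card_sum, Fintype.card_fin, Fintype.card_fin, Module.finrank_prod] at h1
    have h2 : (q + 1) * a * m + (q + 1) * a * m = a * ((q + 1) * m + (q + 1) * m) := by ring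
    have h6 : (a * ((q + 1) * m + (q + 1) * m) + 1 : ℕ) ≤ Module.finrank K W + g₁ := by
      omega
    omega
  obtain ⟨g, hg0, i₀, hi₀⟩ := Fintype.not_linearIndependent_iff.1 hnot
  rw [Fintype.sum_sum_type] at hg0
  simp only [U, Sum.elim_inl, Sum.elim_inr] at hg0
  have e1 : ∑ j, g (Sum.inl j) • φ j + ∑ i, g (Sum.inr i) • φ' i = 0 := by
    have := congrArg (fun y : ↥T × ↥T => ((y.1 : ↥T) : LaurentSeries k)) hg0
    simpa [Prod.fst_sum] using this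
  have e2 : ∑ i, g (Sum.inr i) • ψ' i = 0 := by
    have := congrArg (fun y : ↥T × ↥T => ((y.2 : ↥T) : LaurentSeries k)) hg0
    simpa [Prod.snd_sum] using this
  refine ⟨fun j => g (Sum.inl j), ?_, ?_⟩
  · intro h0
    have h1 : ∀ j, g (Sum.inl j) = 0 := fun j => congrFun h0 j
    have h2 : ∑ i, g (Sum.inr i) • φ' i = 0 := by
      simpa [h1] using e1
    have h3 : ∑ i, g (Sum.inr i) • ((φ' i, ψ' i) : LaurentSeries k × LaurentSeries k) = 0 := by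
      apply Prod.ext
      · simpa [Prod.fst_sum] using h2
      · simpa [Prod.snd_sum] using e2
    have h4 := Fintype.linearIndependent_iff.1 hli _ h3
    rcases i₀ with j | i
    · exact hi₀ (h1 j)
    · exact hi₀ (h4 i)
  · choose b hb using fun i => resK_surjective H.red (-g (Sum.inr i))
    refine ⟨∑ i, ((b i : AK K v) : K) • z i, ?_, ?_, ?_⟩
    · exact (LL_le_BBs _ a) (W.sum_mem fun i _ => W.smul_mem _ (hzW i))
    · have h1 : Rd ρ (∑ i, ((b i : AK K v) : K) • z i) (∑ i, (-g (Sum.inr i)) • φ' i) :=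
        Rd.sum _ fun i _ => by
          have := rd_smul H.red (b i).2 (hφ' i)
          rwa [Subtype.coe_eta, hb i] at this
      have h2 : ∑ i, (-g (Sum.inr i)) • φ' i = ∑ j, g (Sum.inl j) • φ j := by
        simp only [neg_smul, Finset.sum_neg_distrib]
        rw [neg_eq_iff_add_eq_zero, add_comm]
        exact e1
      rwa [h2] at h1
    · have h1 : Rd ρ (w (∑ i, ((b i : AK K v) : K) • z i)) (∑ i, (-g (Sum.inr i)) • ψ' i) := by
        rw [map_sum]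
        refine Rd.sum _ fun i _ => ?_
        have := rd_smul H.red (b i).2 (hψ' i)
        rwa [Subtype.coe_eta, hb i, ← map_smul] at this
      have h2 : ∑ i, (-g (Sum.inr i)) • ψ' i = 0 := by
        simp only [neg_smul, Finset.sum_neg_distrib, e2, neg_zero]
      rw [h2] at h1
      exact (rd_zero_iff H.red).1 h1

end Fermat.Agent.CAR.CNT
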