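import Fermat.Agent.S20
import Fermat.Agent.GAL.Defs
import Fermat.Agent.Lib.Gamma0Comb.Arith

/-!
# CAR / CNT-NUM : genus numerics at the levels `M`, `M q`, `M q²` (`M` admissible, `q ∤ M`)

`gS N = dim S₂(Γ₀(N)) = genusFormula N` (`Fermat.Agent.S20.result`).
`ψ(M q) = (q+1) ψ(M)`, `ψ(M q²) = q (q+1) ψ(M)` (`Lib` : `dedekindPsi_mul`, `dedekindPsi_prime_pow`),
`c(M q) = 2 c(M)`, `c(M q²) = (q+1) c(M)`, `ν₂ = ν₃ = 0` at admissible levels.
-/

set_option autoImplicit false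

open ModularCurve

namespace Fermat.Agent.CAR.CNT

/-- `dim S₂(Γ₀(N))`. -/
noncomputable abbrev gS (N : ℕ) : ℕ :=
  Module.finrank ℂ (CuspForm (CongruenceSubgroup.Gamma0 N) 2)

/-- `4 ∣ N`: `x² + 1` has no root mod `4`; `9 ∣ N`: none mod `3`.  (Reduce with `ZMod.castHom`.) -/
theorem nuTwo_eq_zero {N : ℕ} (h : GAL.AdmLevel N) : nuTwo N = 0 := by
  rw [nuTwo, Nat.card_eq_zero]
  left
  refine ⟨fun x => ?_⟩
  obtain ⟨x, hx⟩ := x
  rcases h with h | h
  · have h1 := congrArg (ZMod.castHom h (ZMod 4)) hx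
    simp only [map_add, map_pow, map_one, map_zero] at h1
    revert h1
    generalize ZMod.castHom h (ZMod 4) x = y
    revert y
    decide
  · have h3 : 3 ∣ N := Dvd.dvd.trans (by norm_num) h
    have h1 := congrArg (ZMod.castHom h3 (ZMod 3)) hx
    simp only [map_add, map_pow, map_one, map_zero] at h1
    revert h1
    generalize ZMod.castHom h3 (ZMod 3) x = y
    revert y
    decide

/-- `4 ∣ N`: `x² + x + 1` has no root mod `2`; `9 ∣ N`: none mod `9`. -/
theorem nuThree_eq_zero {N : ℕ} (h : GAL.AdmLevel N) : nuThree N = 0 := by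
  rw [nuThree, Nat.card_eq_zero]
  left
  refine ⟨fun x => ?_⟩
  obtain ⟨x, hx⟩ := x
  rcases h with h | h
  · have h2 : 2 ∣ N := Dvd.dvd.trans (by norm_num) h
    have h1 := congrArg (ZMod.castHom h2 (ZMod 2)) hx
    simp only [map_add, map_pow, map_one, map_zero] at h1
    revert h1
    generalize ZMod.castHom h2 (ZMod 2) x = y
    revert y
    decide
  · have h1 := congrArg (ZMod.castHom h (ZMod 9)) hx
    simp only [map_add, map_pow, map_one, map_zero] at h1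
    revert h1
    generalize ZMod.castHom h (ZMod 9) x = y
    revert y
    decide

/-- `cuspCount` is multiplicative (`Nat.Coprime.sum_divisors_mul`-type reindexing
`(d₁, d₂) ↦ d₁ d₂`, `gcd (d₁ d₂) (m n / (d₁ d₂)) = gcd d₁ (m/d₁) * gcd d₂ (n/d₂)`, `Nat.totient_mul`;
see `Lib.Gamma0Comb.sum_divisors_mul_of_coprime`). -/
theorem cuspCount_mul {m n : ℕ} (h : m.Coprime n) :
    cuspCount (m * n) = cuspCount m * cuspCount n := by
  unfold cuspCount
  rw [Lib.Gamma0Comb.sum_divisors_mul_of_coprime h, Finset.sum_mul_sum]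
  refine Finset.sum_congr rfl fun d₁ h₁ => Finset.sum_congr rfl fun d₂ h₂ => ?_
  have hd₁ := Nat.dvd_of_mem_divisors h₁
  have hd₂ := Nat.dvd_of_mem_divisors h₂
  rw [Nat.mul_div_mul_comm hd₁ hd₂]
  have he₁ : m / d₁ ∣ m := Nat.div_dvd_of_dvd hd₁
  have he₂ : n / d₂ ∣ n := Nat.div_dvd_of_dvd hd₂
  have hd1d2 : d₁.Coprime d₂ := Nat.Coprime.coprime_dvd_left hd₁ (Nat.Coprime.coprime_dvd_right hd₂ h)
  have hd1e2 : d₁.Coprime (n / d₂) :=
    Nat.Coprime.coprime_dvd_left hd₁ (Nat.Coprime.coprime_dvd_right he₂ h)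
  have he1d2 : (m / d₁).Coprime d₂ :=
    Nat.Coprime.coprime_dvd_left he₁ (Nat.Coprime.coprime_dvd_right hd₂ h)
  have he1e2 : (m / d₁).Coprime (n / d₂) :=
    Nat.Coprime.coprime_dvd_left he₁ (Nat.Coprime.coprime_dvd_right he₂ h)
  have hg : Nat.gcd (d₁ * d₂) (m / d₁ * (n / d₂)) = Nat.gcd d₁ (m / d₁) * Nat.gcd d₂ (n / d₂) := by
    rw [Nat.Coprime.gcd_mul _ he1e2]
    congr 1
    · exact Nat.Coprime.gcd_mul_right_cancel _ he1d2.symm
    · exact Nat.Coprime.gcd_mul_left_cancel _ hd1e2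
  have hgc : (Nat.gcd d₁ (m / d₁)).Coprime (Nat.gcd d₂ (n / d₂)) :=
    Nat.Coprime.coprime_dvd_left (Nat.gcd_dvd_left _ _)
      (Nat.Coprime.coprime_dvd_right (Nat.gcd_dvd_left _ _) hd1d2)
  rw [hg, Nat.totient_mul hgc]

theorem cuspCount_prime {q : ℕ} (hq : q.Prime) : cuspCount q = 2 := by
  unfold cuspCount
  rw [Nat.Prime.divisors hq, Finset.sum_pair hq.one_lt.ne, Nat.gcd_one_left, Nat.div_self hq.pos,
    Nat.gcd_one_right, Nat.totient_one]

theorem cuspCount_prime_sq {q : ℕ} (hq : q.Prime) : cuspCount (q * q) = q + 1 := by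
  unfold cuspCount
  rw [← pow_two, Nat.divisors_prime_pow hq, Finset.sum_map]
  simp only [Function.Embedding.coeFn_mk]
  rw [Finset.sum_range_succ, Finset.sum_range_succ, Finset.sum_range_one, pow_zero,
    Nat.gcd_one_left, Nat.totient_one, pow_one, Nat.div_self (pow_pos hq.pos 2), Nat.gcd_one_right,
    Nat.totient_one, pow_two, Nat.mul_div_cancel _ hq.pos, Nat.gcd_self, Nat.totient_prime hq]
  have := hq.one_le
  omega

/-- `g(M q) + 1 - 2 g(M) = (q - 1) ψ(M) / 12`. -/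
theorem num1 (M q : ℕ) [NeZero M] [NeZero q] (hM : GAL.AdmLevel M) (hq : q.Prime) (hqM : ¬ q ∣ M) :
    12 * (gS (M * q) + 1) = 12 * (2 * gS M) + (q - 1) * dedekindPsi M := by
  have hcop : M.Coprime q := (Nat.Coprime.symm ((Nat.Prime.coprime_iff_not_dvd hq).2 hqM))
  have hMq : GAL.AdmLevel (M * q) := hM.imp (fun h => Dvd.dvd.mul_right h q) fun h => Dvd.dvd.mul_right h q
  have e1 := S20.result (M * q)
  have e2 := S20.result M
  have hψq : dedekindPsi q = q + 1 := by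
    have := Lib.Gamma0Comb.dedekindPsi_prime_pow hq (k := 1) one_pos
    simpa using this
  rw [genusFormula, nuTwo_eq_zero hMq, nuThree_eq_zero hMq, Lib.Gamma0Comb.dedekindPsi_mul hcop,
    cuspCount_mul hcop, cuspCount_prime hq, hψq] at e1
  rw [genusFormula, nuTwo_eq_zero hM, nuThree_eq_zero hM] at e2
  have hq1 : ((q - 1 : ℕ) : ℚ) = (q : ℚ) - 1 := by
    rw [Nat.cast_sub hq.one_le, Nat.cast_one]
  have key : (12 : ℚ) * ((gS (M * q) : ℚ) + 1)
      = 12 * (2 * (gS M : ℚ)) + ((q - 1 : ℕ) : ℚ) * (dedekindPsi M : ℚ) := by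
    rw [hq1, e1, e2]
    push_cast
    ring
  exact_mod_cast key

/-- `g(M q²) - 1 = (q + 1) (g(M) - 1 + d₀)`, `12 d₀ = (q - 1) ψ(M)`. -/
theorem num2 (M q : ℕ) [NeZero M] [NeZero q] (hM : GAL.AdmLevel M) (hq : q.Prime) (hqM : ¬ q ∣ M) :
    12 * gS (M * q * q) + 12 * (q + 1)
      = 12 * ((q + 1) * gS M) + (q + 1) * ((q - 1) * dedekindPsi M) + 12 := by
  have hcop1 : M.Coprime q := (Nat.Coprime.symm ((Nat.Prime.coprime_iff_not_dvd hq).2 hqM))
  have hcop : M.Coprime (q * q) := Nat.Coprime.mul_right hcop1 hcop1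
  have hMq : GAL.AdmLevel (M * (q * q)) :=
    hM.imp (fun h => Dvd.dvd.mul_right h _) fun h => Dvd.dvd.mul_right h _
  have e1 := S20.result (M * q * q)
  have e2 := S20.result M
  have hψq : dedekindPsi (q * q) = q * q + q := by
    have := Lib.Gamma0Comb.dedekindPsi_prime_pow hq (k := 2) two_pos
    simpa [pow_two] using this
  rw [mul_assoc M q q, genusFormula, nuTwo_eq_zero hMq, nuThree_eq_zero hMq,
    Lib.Gamma0Comb.dedekindPsi_mul hcop, cuspCount_mul hcop, cuspCount_prime_sq hq, hψq] at e1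
  rw [genusFormula, nuTwo_eq_zero hM, nuThree_eq_zero hM] at e2
  have hq1 : ((q - 1 : ℕ) : ℚ) = (q : ℚ) - 1 := by
    rw [Nat.cast_sub hq.one_le, Nat.cast_one]
  have key : (12 : ℚ) * (gS (M * (q * q)) : ℚ) + 12 * ((q : ℚ) + 1)
      = 12 * (((q : ℚ) + 1) * (gS M : ℚ))
        + ((q : ℚ) + 1) * (((q - 1 : ℕ) : ℚ) * (dedekindPsi M : ℚ)) + 12 := by
    rw [hq1, e1, e2]
    push_cast
    ring
  rw [mul_assoc M q q]
  exact_mod_cast key

/-- the number `d₀` of supersingular points. -/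
theorem exists_d0 (M q : ℕ) [NeZero M] [NeZero q] (hM : GAL.AdmLevel M) (hq : q.Prime)
    (hqM : ¬ q ∣ M) :
    ∃ d₀ : ℕ, d₀ + 2 * gS M = gS (M * q) + 1 ∧ 12 * d₀ = (q - 1) * dedekindPsi M ∧
      gS (M * q * q) + (q + 1) = (q + 1) * (gS M + d₀) + 1 := by
  have h1 := num1 M q hM hq hqM
  have h2 := num2 M q hM hq hqM
  have h3 : 2 * gS M ≤ gS (M * q) + 1 := by
    by_contra hlt
    push_neg at hlt
    have : 12 * (gS (M * q) + 1) < 12 * (2 * gS M) := by omega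
    omega
  refine ⟨gS (M * q) + 1 - 2 * gS M, by omega, by omega, ?_⟩
  have h4 : 12 * (gS (M * q) + 1 - 2 * gS M) = (q - 1) * dedekindPsi M := by omega
  set d₀ := gS (M * q) + 1 - 2 * gS M with hd
  have h5 : 12 * (gS (M * q * q) + (q + 1)) = 12 * ((q + 1) * (gS M + d₀) + 1) := by
    have : (q + 1) * ((q - 1) * dedekindPsi M) = 12 * ((q + 1) * d₀) := by
      rw [← h4]; ring
    rw [this] at h2
    linarith
  omega

end Fermat.Agent.CAR.CNT
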