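import Fermat.Agent.CAR.CNT.Abs
import Fermat.Agent.CAR.CNT.Num
import Fermat.Agent.TOR.T1C.Main
import Fermat.Agent.GAL.KLC.Main

/-!
# CAR / CNT : concrete form.  Level `M₁ q` (`M₁` admissible, `q ∤ M₁`), `A` a place of `ℚ̄` over `q`:
the conductor `I_Σ` of the reduced chart `B̄B̄₁ ⊆ R' × R'` has colength `≤ d₀ = g(M₁ q) - 2 g(M₁) + 1`,
`12 d₀ = (q - 1) ψ(M₁)`.
-/

set_option autoImplicit false

open ModularCurve AlgebraicCurve Polynomial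

noncomputable section

namespace Fermat.Agent.CAR.CNT

open Fermat.Agent.GR Fermat.Agent.GAL Fermat.Agent.GAL.KL Fermat.Agent.GAL.KLC Fermat.Agent.S24
open Fermat.Agent.GR.HeckeField Fermat.Agent.TOR.GB Fermat.Agent.TOR Fermat.Agent.TOR.T1C

variable (M₁ q : ℕ) [NeZero M₁] [NeZero q]

/-- the parameter `t = x(τ) x(q τ)` of level `M₁ q`. -/
abbrev tQ : FN (M₁ * q) := T1.tt (alp M₁ q) (bet M₁ q) (xF M₁)

/-- Riemann's inequality for `LL ℚ̄ t a`, `t = x(τ) x(qτ)`, at level `M₁ q`. -/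
theorem finrank_LL_tQ_ge (hM : AdmLevel M₁) (hq : q.Prime) (hqM : ¬ q ∣ M₁)
    (A : ValuationSubring Qb) (hA : A.LiesOverPrime q) (a : ℕ) :
    ((a * ((q + 1) * mX M₁ + (q + 1) * mX M₁) + 1 : ℕ) : ℤ) - (gS (M₁ * q) : ℕ)
      ≤ Module.finrank Qb (LL Qb (tQ M₁ q) a) := by
  have H := lvl A M₁ q hq hqM
  have X := xDat M₁ q hq A hA (spansStatement M₁) (riStatement M₁) (ctStatement M₁ q hM hq hqM A hA)
  obtain ⟨P₀, P₁, C⟩ := exists_cusp M₁ q hq hqM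
  have htr := T1.transcendental_tt H X
  have h1 := Genus.riemann_ineq_FN (M₁ * q) (a • FF.poleDiv Qb (tQ M₁ q))
  rw [map_nsmul, FF.degree_poleDiv htr, T1.finrank_tt H X hq.two_le C] at h1
  rw [LL_eq_L htr a]
  have h3 : (FF.ell (a • FF.poleDiv Qb (tQ M₁ q)) : ℤ)
      = (Module.finrank Qb (riemannRochSpace (a • FF.poleDiv Qb (tQ M₁ q))) : ℤ) := rfl
  rw [← h3]
  push_cast
  push_cast at h1
  rw [nsmul_eq_mul] at h1
  linarith

/-- the exact count at level `M₁`. -/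
theorem exists_finrank_Bbar (hM : AdmLevel M₁) (hq : q.Prime) (hqM : ¬ q ∣ M₁)
    (A : ValuationSubring Qb) (hA : A.LiesOverPrime q) :
    ∃ a₀ : ℕ, ∀ a, a₀ ≤ a → Module.Finite (kA A) (KLB.Bbar (isRed A M₁) (xR (kA A) M₁) a) ∧
      Module.finrank (kA A) (KLB.Bbar (isRed A M₁) (xR (kA A) M₁) a) + gS M₁ = a * mX M₁ + 1 := by
  have : CharP (kA A) q := charP_residueField hq hA
  obtain ⟨fZ, hfc, hf0, hfi⟩ := exists_cusp_basis M₁ q hq (kA A)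
  obtain ⟨a₀, ha₀⟩ := KLB.exists_redW_LL_eq (isRed A M₁) (xF_mem_integer M₁ A)
    (xF'_mem_integer M₁ A) (mX_pos M₁)
    (order_rho_xF M₁ A) (order_rho_xF' M₁ A) (spansStatement M₁) (riStatement M₁)
    (fun j => psR (kA A) (fZ j)) hfi (fun j => order_psR_pos _ (hf0 j) (hfi.ne_zero j))
    (fun z hz j => (ctStatement M₁ q hM hq hqM A hA) _ (z : FL Qb M₁).2 _ (hasRed_rho A M₁ z)
      (by rw [rho_xF] at hz; exact hz) _ (hfc j))
  refine ⟨a₀, fun a ha => ?_⟩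
  have h := ha₀ a ha
  rw [rho_xF] at h
  exact ⟨h.2.1, h.2.2.1⟩

/-- **CNT**: among `d₀ + 1` elements of `R'` some nontrivial linear combination lies in `I_Σ`. -/
theorem cnt (hM : AdmLevel M₁) (hq : q.Prime) (hqM : ¬ q ∣ M₁)
    (A : ValuationSubring Qb) (hA : A.LiesOverPrime q) {d₀ : ℕ}
    (hd : d₀ + 2 * gS M₁ = gS (M₁ * q) + 1)
    (φ : Fin (d₀ + 1) → LaurentSeries (kA A))
    (hφ : ∀ i, IsInt (kA A) (xR (kA A) M₁) (φ i) ∧ ∃ c, T1.Rd (rho A M₁) c (φ i)) :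
    ∃ c : Fin (d₀ + 1) → kA A, c ≠ 0 ∧
      ISig (rho A (M₁ * q)) (wq M₁ q) (tQ M₁ q) (∑ i, c i • φ i) := by
  have H := lvl A M₁ q hq hqM
  have X := xDat M₁ q hq A hA (spansStatement M₁) (riStatement M₁) (ctStatement M₁ q hM hq hqM A hA)
  obtain ⟨P₀, P₁, C⟩ := exists_cusp M₁ q hq hqM
  exact cnt_abs H X hq.two_le (arch A (M₁ * q) hq hA) C hd
    (finrank_LL_tQ_ge M₁ q hM hq hqM A hA) (exists_finrank_Bbar M₁ q hM hq hqM A hA) φ hφ

end Fermat.Agent.CAR.CNT
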