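import Fermat.Agent.GAL.KLC.XSeries
import Fermat.Agent.Lib.Gamma0Comb.Arith

/-!
# CAR / CNT-NUM-m : `m = -ord_Q x = e₀ ψ(M)`
-/

set_option autoImplicit false

open ModularCurve

namespace Fermat.Agent.CAR.CNT

open Fermat.Agent.GAL.KLC

/-- `ψ(N) ∏_{p ∣ N} p = N ∏_{p ∣ N} (p + 1)`.
PROOF.  Both sides are multiplicative (`Lib.Gamma0Comb.dedekindPsi_mul`, `Nat.Coprime.primeFactors_mul`,
`Finset.prod_union`); `Nat.recOnPosPrimePosCoprime`; prime powers: `Lib.Gamma0Comb.dedekindPsi_prime_pow`. -/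
theorem dedekindPsi_mul_prod (N : ℕ) (hN : N ≠ 0) :
    dedekindPsi N * ∏ p ∈ N.primeFactors, p = N * ∏ p ∈ N.primeFactors, (p + 1) := by
  induction N using Nat.recOnPosPrimePosCoprime with
  | prime_pow p n hp hn =>
    rw [Lib.Gamma0Comb.dedekindPsi_prime_pow hp hn, Nat.primeFactors_prime_pow hn.ne' hp,
      Finset.prod_singleton, Finset.prod_singleton]
    obtain ⟨j, rfl⟩ : ∃ j, n = j + 1 := ⟨n - 1, by omega⟩
    rw [Nat.add_sub_cancel]
    ring
  | zero => exact absurd rfl hN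
  | one => simp [dedekindPsi, Finset.filter_singleton]
  | coprime a b ha1 hb1 hab ha hb =>
    have ha' := ha (by omega)
    have hb' := hb (by omega)
    rw [Lib.Gamma0Comb.dedekindPsi_mul hab, hab.primeFactors_mul,
      Finset.prod_union hab.disjoint_primeFactors, Finset.prod_union hab.disjoint_primeFactors]
    calc dedekindPsi a * dedekindPsi b * ((∏ p ∈ a.primeFactors, p) * ∏ p ∈ b.primeFactors, p)
        = (dedekindPsi a * ∏ p ∈ a.primeFactors, p) * (dedekindPsi b * ∏ p ∈ b.primeFactors, p) := by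
          ring
      _ = a * b * ((∏ p ∈ a.primeFactors, (p + 1)) * ∏ p ∈ b.primeFactors, (p + 1)) := by
          rw [ha', hb']; ring

/-- **`m = e₀ ψ(M)`.**
PROOF.  `XSeries_mX`: `-m = ∑_{T ⊆ P} expT M T * dT M T`, `P = M.primeFactors`,
`expT M T = -((-1)^|T| ∏_{p ∈ P \ T} p)`, `dT M T = M / ∏_{p ∈ T} p`.  Multiply by `R := ∏_{p ∈ P} p`:
`R * dT M T = M * ∏_{p ∈ P \ T} p`, so `m R = M ∑_T (-1)^|T| ∏_{p ∈ P \ T} p ^ 2 = M ∏_{p ∈ P} (p ^ 2 - 1)`
(`Finset.prod_sub` / `Finset.prod_add` : `∏ (f + g) = ∑_T ∏_{T} f ∏_{P \ T} g`), and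
`∏ (p² - 1) = ∏ (p - 1) ∏ (p + 1) = e₀ ∏ (p + 1)`; conclude with `dedekindPsi_mul_prod` and cancel `R`. -/
theorem mX_eq (M : ℕ) [NeZero M] : mX M = e0 M * dedekindPsi M := by
  have h1 := XSeries_mX M
  rw [XSeries_sum_expT_dT, neg_inj] at h1
  have h2 : ∏ p ∈ M.primeFactors, ((p : ℤ) ^ 2 - 1) =
      ((e0 M * ∏ p ∈ M.primeFactors, (p + 1) : ℕ) : ℤ) := by
    unfold e0
    rw [← Finset.prod_mul_distrib, Nat.cast_prod]
    refine Finset.prod_congr rfl fun p hp => ?_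
    have := (Nat.prime_of_mem_primeFactors hp).one_le
    push_cast [this]
    ring
  rw [h2] at h1
  have h3 : mX M = (M / ∏ p ∈ M.primeFactors, p) * (e0 M * ∏ p ∈ M.primeFactors, (p + 1)) := by
    exact_mod_cast h1
  have hR : 0 < ∏ p ∈ M.primeFactors, p :=
    Finset.prod_pos fun p hp => (Nat.prime_of_mem_primeFactors hp).pos
  have h4 : (M / ∏ p ∈ M.primeFactors, p) * ∏ p ∈ M.primeFactors, p = M :=
    Nat.div_mul_cancel (Nat.prod_primeFactors_dvd M)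
  have h5 := dedekindPsi_mul_prod M (NeZero.ne M)
  apply Nat.eq_of_mul_eq_mul_right hR
  rw [h3]
  calc (M / ∏ p ∈ M.primeFactors, p) * (e0 M * ∏ p ∈ M.primeFactors, (p + 1)) *
        ∏ p ∈ M.primeFactors, p
      = e0 M * (((M / ∏ p ∈ M.primeFactors, p) * ∏ p ∈ M.primeFactors, p) *
          ∏ p ∈ M.primeFactors, (p + 1)) := by ring
    _ = e0 M * dedekindPsi M * ∏ p ∈ M.primeFactors, p := by rw [h4, ← h5]; ring

end Fermat.Agent.CAR.CNT
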