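import Fermat.Agent.CAR.CNT.Num
import Fermat.Agent.CAR.CNT.NumM

/-!
# CAR / CNT-NUM : the numerical identity used by the count of [P1]
-/

set_option autoImplicit false

open ModularCurve

namespace Fermat.Agent.CAR.CNT

open Fermat.Agent.GAL.KLC

/-- `12 e₀ (1 - g₂) = (q + 1) (12 e₀ (1 - g') - (q - 1) m)`. -/
theorem num_P1 (M q : ℕ) [NeZero M] [NeZero q] (hM : GAL.AdmLevel M) (hq : q.Prime)
    (hqM : ¬ q ∣ M) :
    12 * (e0 M : ℤ) * (1 - (gS (M * q * q) : ℤ))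
      = ((q : ℤ) + 1) * (12 * (e0 M : ℤ) * (1 - (gS M : ℤ)) - ((q : ℤ) - 1) * (mX M : ℤ)) := by
  obtain ⟨d₀, -, h2, h3⟩ := exists_d0 M q hM hq hqM
  have hq1 : 1 ≤ q := hq.one_lt.le
  have h2' : 12 * (d₀ : ℤ) = ((q : ℤ) - 1) * (dedekindPsi M : ℤ) := by
    have := congrArg (Nat.cast : ℕ → ℤ) h2
    push_cast [Nat.cast_sub hq1] at this
    exact this
  have h3' : (gS (M * q * q) : ℤ) + ((q : ℤ) + 1) = ((q : ℤ) + 1) * ((gS M : ℤ) + d₀) + 1 := by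
    exact_mod_cast h3
  have h4 : (mX M : ℤ) = (e0 M : ℤ) * (dedekindPsi M : ℤ) := by
    exact_mod_cast mX_eq M
  have h5 : (1 - (gS (M * q * q) : ℤ)) = ((q : ℤ) + 1) * (1 - (gS M : ℤ) - d₀) := by linarith
  rw [h5, h4]
  have h6 : ((q : ℤ) - 1) * ((e0 M : ℤ) * (dedekindPsi M : ℤ)) = 12 * (e0 M : ℤ) * d₀ := by
    rw [mul_left_comm, ← h2']; ring
  rw [h6]
  ring

end Fermat.Agent.CAR.CNT
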