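import Fermat.Agent.CAR.ON.Basis
import Fermat.Agent.CAR.CNT.Num
import Fermat.Agent.GAL.KLC.LLeqL
import Fermat.Agent.GAL.Genus.Main

/-!
# CAR / CNT-RI2 : Riemann's inequality for `LL K t a`, `t = x(τ) x(q² τ)`, at level `q² M'`

Abstract form in the three-level setting `ON.Lvl2`; concrete form for `F = FN (M' * q * q)` (any `Lvl2` datum on it).
`D = [F : K(t)] = 2 (q² + 1) m + (q - 1) 2 m = 2 m q (q + 1)`.
-/

set_option autoImplicit false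

open Polynomial ModularCurve AlgebraicCurve

noncomputable section

namespace Fermat.Agent.CAR.CNT

open Fermat.Agent.GAL.KL Fermat.Agent.GAL.KLC Fermat.Agent.TOR.T1 Fermat.Agent.CAR.KLm
open Fermat.Agent.S24.FF Fermat.Agent.GAL Fermat.Agent.CAR.ON Fermat.Agent.S24

/-- the degree `D` of `t = x(τ) x(q²τ)`. -/
abbrev DD (m q : ℕ) : ℕ := ((q * q + 1) * m + (q * q + 1) * m) + (q - 1) * ((1 + 1) * m)

theorem DD_eq (m q : ℕ) (hq : 0 < q) : DD m q = 2 * m * q * (q + 1) := by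
  obtain ⟨r, rfl⟩ : ∃ r, q = r + 1 := ⟨q - 1, by omega⟩
  simp only [DD, Nat.add_sub_cancel]
  ring

section Abs

variable {K F₀ F k Γ' Γ₀ I : Type*} [Field K] [Field F₀] [Field F] [Algebra K F₀]
  [Algebra K F] [Field k] [LinearOrderedCommGroupWithZero Γ'] [LinearOrderedCommGroupWithZero Γ₀]
  {v₀ : Valuation F₀ Γ'} {ρ₀ : v₀.integer →+* LaurentSeries k}
  {v : Idx I → Valuation F Γ₀} {ρ : ∀ i, (v i).integer →+* LaurentSeries k}
  {α β γ : F₀ →ₐ[K] F} {q : ℕ} [NeZero q] {x x' : F₀} {ξ ξ' : LaurentSeries k} {m : ℕ}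
  {δ : F} {ψ : LaurentSeries k} {cc : I → k}

/-- `[F : K(t)] = D`. -/
theorem finrank_tt2 [Fintype I] [IsAlgClosed K] [CharZero K] [IsFF1 K F]
    (H : Lvl2 K ρ₀ v ρ α β γ q) (X : XDat K ρ₀ x x' ξ ξ' m q) (hq : 2 ≤ q)
    (hA : ∀ i, Arch (v i)) (Dl : Del v ρ δ ψ cc) (hI : q - 1 ≤ Fintype.card I)
    (hα : finrankAlong K α = q * (q + 1)) (hγ : finrankAlong K γ = q * (q + 1)) :
    Module.finrank (IntermediateField.adjoin K {tt α γ x}) F = DD m q := by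
  obtain ⟨Em, -, hON, hSp⟩ := exists_basis H X hq hA Dl hI hα hγ
  exact finrank_adjoin_of_spans_of_transcendental _ (ON.transcendental_tt H X) hSp
    (hON.inj (ON.setup H X))

/-- **RI2 (abstract).** -/
theorem ri2_abs [Fintype I] [IsAlgClosed K] [CharZero K] [IsFF1 K F]
    (H : Lvl2 K ρ₀ v ρ α β γ q) (X : XDat K ρ₀ x x' ξ ξ' m q) (hq : 2 ≤ q)
    (hA : ∀ i, Arch (v i)) (Dl : Del v ρ δ ψ cc) (hI : q - 1 ≤ Fintype.card I)
    (hα : finrankAlong K α = q * (q + 1)) (hγ : finrankAlong K γ = q * (q + 1)) {g₂ : ℕ}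
    (hR : ∀ D : Divisor K F, Divisor.degree D + 1 - (g₂ : ℤ) ≤ FF.ell D) (a : ℕ) :
    ((a * DD m q + 1 : ℕ) : ℤ) - g₂ ≤ Module.finrank K (LL K (tt α γ x) a) := by
  have htr := ON.transcendental_tt H X
  have h1 := hR (a • FF.poleDiv K (tt α γ x))
  rw [map_nsmul, FF.degree_poleDiv htr, finrank_tt2 H X hq hA Dl hI hα hγ] at h1
  rw [LL_eq_L htr a]
  have h3 : (FF.ell (a • FF.poleDiv K (tt α γ x)) : ℤ)
      = (Module.finrank K (riemannRochSpace (a • FF.poleDiv K (tt α γ x))) : ℤ) := rfl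
  rw [← h3]
  rw [nsmul_eq_mul] at h1
  push_cast
  push_cast at h1
  linarith

end Abs

section Conc

variable {F₀ k Γ' Γ₀ I : Type*} [Field F₀] [Algebra Kb F₀]
  [Field k] [LinearOrderedCommGroupWithZero Γ'] [LinearOrderedCommGroupWithZero Γ₀]
  {v₀ : Valuation F₀ Γ'} {ρ₀ : v₀.integer →+* LaurentSeries k} {N : ℕ} [NeZero N]
  {v : Idx I → Valuation (FN N) Γ₀} {ρ : ∀ i, (v i).integer →+* LaurentSeries k}
  {α β γ : F₀ →ₐ[Kb] FN N} {q : ℕ} [NeZero q] {x x' : F₀} {ξ ξ' : LaurentSeries k} {m : ℕ}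
  {δ : FN N} {ψ : LaurentSeries k} {cc : I → k}

/-- **RI2 (concrete field `FN N`, `N = M' q²`, any `Lvl2` datum).** -/
theorem ri2 [Fintype I] (H : Lvl2 Kb ρ₀ v ρ α β γ q) (X : XDat Kb ρ₀ x x' ξ ξ' m q) (hq : 2 ≤ q)
    (hA : ∀ i, Arch (v i)) (Dl : Del v ρ δ ψ cc) (hI : q - 1 ≤ Fintype.card I)
    (hα : finrankAlong Kb α = q * (q + 1)) (hγ : finrankAlong Kb γ = q * (q + 1)) (a : ℕ) :
    ((a * DD m q + 1 : ℕ) : ℤ) - (gS N : ℕ) ≤ Module.finrank Kb (LL Kb (tt α γ x) a) :=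
  ri2_abs H X hq hA Dl hI hα hγ (Genus.riemann_ineq_FN N) a

end Conc

end Fermat.Agent.CAR.CNT
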