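import Mathlib

/-!
# CAR / CNT-RED : orthonormal families in finite dimensional subspaces (abstract ultrametric norm)

`K` a valued field, `F` a `K`-vector space with an ultrametric norm `N` (e.g. the sup norm of finitely many
valuations of a field `F ⊇ K` agreeing on `K`).  If the subspace `U` has enough norm attaining contracting
functionals, every finite dimensional `W ≤ U` has an orthonormal basis.  (Generalises `GAL/KLB/Red.lean`.)
-/

set_option autoImplicit false

namespace Fermat.Agent.CAR.CNT

variable {K F Γ₀ : Type*} [Field K] [AddCommGroup F] [Module K F]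
  [LinearOrderedCommGroupWithZero Γ₀]

/-- an ultrametric norm on the `K`-vector space `F`. -/
structure UNorm (vK : Valuation K Γ₀) (N : F → Γ₀) : Prop where
  add : ∀ x y, N (x + y) ≤ max (N x) (N y)
  smul : ∀ (a : K) (x : F), N (a • x) = vK a * N x
  ne : ∀ x, x ≠ 0 → N x ≠ 0

/-- `U` has enough norm attaining contracting functionals. -/
def HasFunN (vK : Valuation K Γ₀) (N : F → Γ₀) (U : Submodule K F) : Prop :=
  ∀ z ∈ U, z ≠ 0 → ∃ lam : F →ₗ[K] K, vK (lam z) = N z ∧ ∀ z' ∈ U, vK (lam z') ≤ N z'

variable {vK : Valuation K Γ₀} {N : F → Γ₀}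

theorem UNorm.sub (hN : UNorm vK N) (x y : F) : N (x - y) ≤ max (N x) (N y) := by
  have h := hN.add x ((-1 : K) • y)
  rw [hN.smul, Valuation.map_neg, map_one, one_mul] at h
  simpa [sub_eq_add_neg] using h

theorem red_aux (hN : UNorm vK N) {U : Submodule K F} (hU : HasFunN vK N U) (n : ℕ) :
    ∀ (W : Submodule K F), W ≤ U → FiniteDimensional K W → Module.finrank K W = n →
    ∃ z : Fin n → F, (∀ i, z i ∈ W) ∧ (∀ i, N (z i) = 1) ∧
      ∀ c : Fin n → K, N (∑ i, c i • z i) < 1 → ∀ i, vK (c i) < 1 := by
  induction n with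
  | zero =>
    intro W _ _ _
    exact ⟨Fin.elim0, fun i => i.elim0, fun i => i.elim0, fun _ _ i => i.elim0⟩
  | succ n ih =>
    intro W hW hfd hn
    have hWne : W ≠ ⊥ := by
      intro h
      rw [h, finrank_bot] at hn
      omega
    obtain ⟨z0, hz0W, hz0⟩ := Submodule.exists_mem_ne_zero_of_ne_bot hWne
    obtain ⟨lam0, hlam0, -⟩ := hU z0 (hW hz0W) hz0
    have hNz0 : N z0 ≠ 0 := hN.ne z0 hz0
    set a : K := lam0 z0 with ha
    have ha0 : vK a ≠ 0 := by rw [hlam0]; exact hNz0
    set z1 : F := a⁻¹ • z0 with hz1
    have hz1W : z1 ∈ W := W.smul_mem _ hz0W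
    have hNz1 : N z1 = 1 := by
      rw [hz1, hN.smul, map_inv₀, ← hlam0]
      exact inv_mul_cancel₀ ha0
    have hz1ne : z1 ≠ 0 := by
      intro h
      have h2 := hN.smul (0 : K) z1
      rw [zero_smul, map_zero, zero_mul, ← h, hNz1] at h2
      exact one_ne_zero h2
    obtain ⟨lam, hlam1, hlam⟩ := hU z1 (hW hz1W) hz1ne
    rw [hNz1] at hlam1
    have hlamz1 : lam z1 ≠ 0 := by
      intro h
      rw [h, map_zero] at hlam1
      exact zero_ne_one hlam1
    set W' : Submodule K F := W ⊓ LinearMap.ker lam with hW'
    have hW'W : W' ≤ W := inf_le_left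
    have : FiniteDimensional K W := hfd
    have hfd' : FiniteDimensional K W' := Submodule.finiteDimensional_of_le hW'W
    have hn' : Module.finrank K W' = n := by
      set lamW : W →ₗ[K] K := lam.domRestrict W with hlamW
      have hsurj : Function.Surjective lamW := by
        intro c
        refine ⟨(c * (lam z1)⁻¹) • ⟨z1, hz1W⟩, ?_⟩
        rw [map_smul, hlamW, LinearMap.domRestrict_apply, smul_eq_mul]
        simp only
        rw [mul_assoc, inv_mul_cancel₀ hlamz1, mul_one]
      have h1 := LinearMap.finrank_range_add_finrank_ker lamW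
      rw [LinearMap.range_eq_top.mpr hsurj, finrank_top, Module.finrank_self, hn] at h1
      have h2 : Module.finrank K (LinearMap.ker lamW) = Module.finrank K W' := by
        have : W' = (LinearMap.ker lamW).map W.subtype := by
          ext y
          simp only [hW', Submodule.mem_inf, LinearMap.mem_ker, Submodule.mem_map,
            Submodule.subtype_apply, Subtype.exists, exists_and_right, exists_eq_right, hlamW,
            LinearMap.domRestrict_apply]
          constructor
          · rintro ⟨h, h'⟩; exact ⟨h, h'⟩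
          · rintro ⟨h, h'⟩; exact ⟨h, h'⟩
        rw [this]
        exact (LinearEquiv.finrank_eq
          (Submodule.equivMapOfInjective W.subtype W.injective_subtype _))
      omega
    obtain ⟨z', hz'W, hz'N, hz'li⟩ := ih W' (hW'W.trans hW) hfd' hn'
    refine ⟨Fin.cons z1 z', ?_, ?_, ?_⟩
    · intro i
      refine Fin.cases ?_ (fun j => ?_) i
      · simpa using hz1W
      · simpa using hW'W (hz'W j)
    · intro i
      refine Fin.cases ?_ (fun j => ?_) i
      · simpa using hNz1
      · simpa using hz'N j
    · intro c hc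
      rw [Fin.sum_univ_succ] at hc
      simp only [Fin.cons_zero, Fin.cons_succ] at hc
      set y : F := ∑ j : Fin n, c j.succ • z' j with hy
      have hyW' : y ∈ W' := Submodule.sum_mem _ fun j _ => W'.smul_mem _ (hz'W j)
      have hly : lam y = 0 := hyW'.2
      have htot : c 0 • z1 + y ∈ U := hW (W.add_mem (W.smul_mem _ hz1W) (hW'W hyW'))
      have h1 := hlam _ htot
      rw [map_add, hly, add_zero, map_smul, smul_eq_mul, map_mul, hlam1, mul_one] at h1
      have hc0 : vK (c 0) < 1 := lt_of_le_of_lt h1 hc
      have hy1 : N y < 1 := by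
        have h2 : y = (c 0 • z1 + y) - c 0 • z1 := by abel
        rw [h2]
        refine lt_of_le_of_lt (hN.sub _ _) (max_lt hc ?_)
        rw [hN.smul, hNz1, mul_one]
        exact hc0
      have h3 := hz'li (fun j => c j.succ) hy1
      intro i
      refine Fin.cases hc0 (fun j => h3 j) i

/-- **RED** (abstract norm): a finite dimensional subspace `W` of `U` has an orthonormal basis. -/
theorem exists_orthonormal (hN : UNorm vK N) {U : Submodule K F} (hU : HasFunN vK N U)
    (W : Submodule K F) (hW : W ≤ U) [FiniteDimensional K W] :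
    ∃ z : Fin (Module.finrank K W) → F, (∀ i, z i ∈ W) ∧ (∀ i, N (z i) = 1) ∧
      ∀ c : Fin (Module.finrank K W) → K, N (∑ i, c i • z i) < 1 → ∀ i, vK (c i) < 1 :=
  red_aux hN hU _ W hW inferInstance rfl

end Fermat.Agent.CAR.CNT
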